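/-
Level lowering by patching: compactness. Compatible solutions modulo every power of the maximal
ideal of a complete Noetherian local ring with finite residue field come from an exact solution.
-/
import Mathlib

set_option autoImplicit false

noncomputable section

open IsLocalRing CategoryTheory

namespace Fermat.Agent.LL

/-- A family of conditions modulo the powers of the maximal ideal, each satisfiable and stable
under reduction, is satisfied by a single tuple. -/
theorem exists_of_forall_quotient {S : Type} [CommRing S] [IsLocalRing S] [IsNoetherianRing S]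
    [IsAdicComplete (maximalIdeal S) S] [Finite (ResidueField S)] {α : Type} [Finite α]
    (P : ∀ n, (α → S ⧸ maximalIdeal S ^ n) → Prop)
    (hmap : ∀ {m n : ℕ} (h : m ≤ n) (x : α → S ⧸ maximalIdeal S ^ n), P n x →
      P m fun a => Ideal.Quotient.factor (Ideal.pow_le_pow_right h) (x a))
    (hP : ∀ n, ∃ x, P n x) :
    ∃ x : α → S, ∀ n, P n fun a => Ideal.Quotient.mk _ (x a) := by
  haveI hfin : ∀ n, Finite (S ⧸ maximalIdeal S ^ n) := fun n => finite_quotient_iff.mpr ⟨n, le_rfl⟩
  let F : ℕᵒᵖ ⥤ Type :=
    { obj := fun n => {x : α → S ⧸ maximalIdeal S ^ n.unop // P n.unop x}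
      map := fun {a b} f => TypeCat.ofHom fun x =>
        ⟨fun i => Ideal.Quotient.factor (Ideal.pow_le_pow_right (leOfHom f.unop)) (x.1 i),
          hmap (leOfHom f.unop) x.1 x.2⟩
      map_id := fun a => by
        ext x i
        simp
      map_comp := fun {a b c} f g => by
        ext x i
        simp }
  haveI : ∀ j : ℕᵒᵖ, Nonempty (F.obj j) := fun j =>
    let ⟨x, hx⟩ := hP j.unop
    ⟨⟨x, hx⟩⟩
  haveI : ∀ j : ℕᵒᵖ, Finite (F.obj j) := fun j =>
    inferInstanceAs (Finite {x : α → S ⧸ maximalIdeal S ^ j.unop // P j.unop x})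
  obtain ⟨sec, hsec⟩ := nonempty_sections_of_finite_inverse_system F
  let x : ∀ n, α → S ⧸ maximalIdeal S ^ n := fun n => (sec (Opposite.op n)).1
  have hx : ∀ {a b : ℕ} (h : a ≤ b) (i : α),
      Ideal.Quotient.factor (Ideal.pow_le_pow_right h) (x b i) = x a i := fun {a b} h i => by
    have := hsec (homOfLE h).op
    exact congrFun (congrArg Subtype.val this) i
  have hlim : ∀ i, ∃ L : S, ∀ n, Ideal.Quotient.mk (maximalIdeal S ^ n) L = x n i := fun i => by
    let f : ℕ → S := fun n => Quotient.out (x n i)
    have hf : ∀ n, Ideal.Quotient.mk (maximalIdeal S ^ n) (f n) = x n i := fun n => Ideal.Quotient.mk_out _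
    obtain ⟨L, hL⟩ := IsPrecomplete.prec (I := maximalIdeal S) (M := S) inferInstance (f := f)
      (fun {a b} h => by
        rw [SModEq.sub_mem, smul_eq_mul, Ideal.mul_top, ← Ideal.Quotient.eq, hf a, ← hx h i,
          ← hf b, Ideal.Quotient.factor_mk])
    refine ⟨L, fun n => ?_⟩
    have := hL n
    rw [SModEq.sub_mem, smul_eq_mul, Ideal.mul_top, ← Ideal.Quotient.eq, hf] at this
    exact this.symm
  choose L hL using hlim
  refine ⟨L, fun n => ?_⟩
  rw [show (fun a => Ideal.Quotient.mk (maximalIdeal S ^ n) (L a)) = x n from funext fun i => hL i n]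
  exact (sec (Opposite.op n)).2

end Fermat.Agent.LL
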