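/-
Level lowering, unit U4: Mazur's principle for the Frey curve.
-/
import Fermat.Agent.EC.Reducible
import Fermat.Agent.EC.DetCyclo
import Fermat.Agent.GalRep.Wild.EigenBoth
import Fermat.Agent.GalRep.Wild.Lowering
import Fermat.Agent.GalRep.Wild.NonEisenstein
import Fermat.Agent.LL.Mazur.Decomposition
import Fermat.Agent.LL.Mazur.EigenLower
import Fermat.Agent.LL.Mazur.GaloisEnd
import Fermat.Agent.LL.Mazur.LevelVanish
import Fermat.Agent.LL.Mazur.Twist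
import Fermat.Prelude.Def_FreyPackage_IsConductorLevel
import Fermat.Prelude.Def_FLTPrelim_ModularRep
import Fermat.Prelude.Def_FLTPrelim_Ramification

set_option autoImplicit false

open WeierstrassCurve WeierstrassCurve.Affine WeierstrassCurve.Affine.Point CongruenceSubgroup
open Fermat.Agent.EC
open Fermat.Agent.GalRep
open Fermat.Agent.GalRep.Semistable (alR alR_add)
open Fermat.Agent.Galois (GQ)

set_option linter.style.haveILetI false

namespace Fermat.Agent.LL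

/-- The decomposition group at `A` does not act on `E[p]` by scalars. -/
def NonScalarAt (P : FreyPackage) (A : ValuationSubring (AlgebraicClosure ℚ)) : Prop :=
  ∃ σ ∈ A.decompositionSubgroup ℚ, ∀ c : ℤ, ∃ x : FreyTorsion P,
    (σ : AlgebraicClosure ℚ ≃ₐ[ℚ] AlgebraicClosure ℚ) • x ≠ c • x

/-- `Mazur.scalar_of_eigen` on a stable subgroup killed by `p`. -/
theorem scalar_of_stable (P : FreyPackage) [Fact P.p.Prime]
    (hirr : GaloisRepIsIrreducible (K := AlgebraicClosure ℚ) ℚ P.freyCurve P.p) {M : Type}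
    [AddCommGroup M] (ρ : GQ →* Module.End ℤ M) (V : AddSubgroup M) [Nontrivial V]
    [Module (ZMod P.p) V] [NeZero P.p] (hstab : ∀ t, ∀ x ∈ V, ρ t x ∈ V)
    (hrel : ∀ t, ∀ x ∈ V, ρ t x + (freyOmega P t).val • ρ t⁻¹ x =
      (Wild.freyTrace P t).val • x)
    {σ : GQ} {q : ℕ} (c : ℤ) (hc : c * c = (q : ℤ) * q) (hσ : ∀ x ∈ V, ρ σ x = c • x)
    (hω : freyOmega P σ = q) :
    (q : ZMod P.p) = 1 ∧ galoisRepModuleEnd (K := AlgebraicClosure ℚ) ℚ P.freyCurve.toAffine P.p σ =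
      (c : ZMod P.p) • 1 := by
  refine Mazur.scalar_of_eigen P hirr (Wild.restrictRep P.p ρ V hstab)
    (fun t => Wild.restrictRep_rel P.p _ V hstab t t⁻¹ _ _ (hrel t)) ?_ ?_ hω
  · rw [← Int.cast_mul, hc]; push_cast; rfl
  · exact LinearMap.ext fun x => Subtype.ext (by
      rw [Wild.coe_restrictRep, hσ x.1 x.2, LinearMap.smul_apply, Module.End.one_apply,
        Int.cast_smul_eq_zsmul, AddSubgroup.coe_zsmul])

attribute [local irreducible] kummerGalois autChar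

set_option maxHeartbeats 1600000 in
set_option synthInstance.maxHeartbeats 400000 in
/-- **Mazur's principle**: `ℓ` can be removed from the level when the representation is unramified
at `ℓ` and Frobenius is not scalar or `ℓ` is not `1` mod `p`. -/
theorem modularRepOfLevel_of_mazur_principle (P : FreyPackage) {ℓ m : ℕ}
    (hcond : P.IsConductorLevel (ℓ * m)) (hℓ : ℓ.Prime) (hℓ2 : ℓ ≠ 2) (hpN : ¬ P.p ∣ ℓ * m)
    (hirr : GaloisRepIsIrreducible (K := AlgebraicClosure ℚ) ℚ P.freyCurve P.p)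
    (hmod : P.ModularRepOfLevel (ℓ * m)) (hunr : P.GaloisRepUnramifiedAt ℓ)
    (hcase : (ℓ : ZMod P.p) ≠ 1 ∨
      ∀ A : ValuationSubring (AlgebraicClosure ℚ), A.LiesOverPrime ℓ → NonScalarAt P A) :
    P.ModularRepOfLevel m := by
  classical
  haveI : Fact P.p.Prime := ⟨P.pp⟩
  haveI : NeZero P.p := ⟨P.hp0⟩
  haveI : Fact ℓ.Prime := ⟨hℓ⟩
  haveI : NeZero ℓ := ⟨hℓ.ne_zero⟩
  haveI : NeZero m := ⟨fun h => hcond.pos.ne' (by rw [h, mul_zero])⟩
  haveI : NeZero (ℓ * m) := ⟨hcond.pos.ne'⟩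
  have hℓm : ¬ ℓ ∣ m := fun h => hℓ.not_isUnit (hcond.squarefree ℓ (mul_dvd_mul_left ℓ h))
  have hℓp : ℓ ≠ P.p := fun h => hpN (h ▸ dvd_mul_right ℓ m)
  have hpm : ¬ P.p ∣ m := fun h => hpN (h.mul_left ℓ)
  obtain ⟨f, W, 𝔪, hf, hW, h𝔪, hp𝔪, hcong⟩ := hmod
  by_contra hcon
  have hΔ := Wild.delta_ne_zero P hW
  set S : Finset ℕ :=
    insert ℓ (insert P.p (W.Δ.natAbs.primeFactors ∪ m.primeFactors)) with hSdef
  have hℓS : ℓ ∈ S := Finset.mem_insert_self _ _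
  have hpS : P.p ∈ S := Finset.mem_insert_of_mem (Finset.mem_insert_self _ _)
  have hmS : ∀ r : ℕ, r.Prime → r ∣ m → r ∈ S := fun r hr hrm =>
    Finset.mem_insert_of_mem (Finset.mem_insert_of_mem (Finset.mem_union_right _
      (Nat.mem_primeFactors.mpr ⟨hr, hrm, NeZero.ne m⟩)))
  have hS : ∀ r : ℕ, r.Prime → r ∉ S → W.IsGoodPrimeFor r ∧ r ≠ P.p := fun r hr hrS =>
    ⟨fun h => hrS (Finset.mem_insert_of_mem (Finset.mem_insert_of_mem (Finset.mem_union_left _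
      (Nat.mem_primeFactors.mpr ⟨hr, Int.natCast_dvd.mp h, Int.natAbs_ne_zero.mpr hΔ⟩)))),
      fun h => hrS (h ▸ hpS)⟩
  have hno : ∀ χ' : ParHom m (ZMod P.p), (∀ l : GoodPrime m, (l : ℕ) ∉ S →
      heckeHomAt l χ' = W.apOfModel (l : ℕ) • χ') → χ' = 0 := fun χ' h => by
    by_contra h0
    obtain ⟨θ, hθ⟩ := Mazur.exists_theta_of_eigen P.hp5 S hmS W.apOfModel h0 h
    exact hcon (Wild.modularRepOfLevel_of_theta P hW S hS hmS θ hθ)
  obtain ⟨A, hA⟩ := Galois.exists_liesOverPrime hℓ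
  obtain ⟨σ, hσ⟩ := Galois.exists_isFrobeniusAt hℓ hA
  obtain ⟨g, hg⟩ := Wild.exists_lowerRow hℓ hℓm
  set ρ := (kummerGalois (ℓ * m) P.p).galois with hρ
  obtain ⟨χ₀, h0, hhecke, hrel⟩ := Wild.exists_eigen P hf hW h𝔪 hp𝔪 hcong S hS
  obtain ⟨ψ, hψ, hψ0⟩ := Wild.exists_fixed_eigen (S := S) (W := W) h0 ⟨hhecke, hrel⟩
  set V₀ := Wild.eigenSpace P (ℓ * m) S W with hV₀
  have hkey : ∀ x ∈ V₀, ρ σ (alR hg x) + ℓ • x = 0 := fun x hx =>
    Mazur.galois_alR_add_eq_zero hA P.hp5 hℓp hℓ2 hℓm hpm hσ hg S hmS hℓS hpS W.apOfModel hno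
      (fun M _ => Wild.exists_prime_nonEisenstein P hirr hW M S hS) hx.1.hecke
      fun t ht => hx.2 t fun y => hunr A hA t ht y
  have hW₀ : ∀ x ∈ V₀, alR hg x ∈ V₀ := fun x hx =>
    ⟨⟨fun l hl => Wild.alR_eigen hg l (hx.1.hecke l hl), fun t => by
      have h := congrArg (Semistable.alL hg) (hx.1.rel t)
      simp only [map_add, map_nsmul, Semistable.alL_apply] at h
      rwa [← Mazur.alR_galois hg, ← Mazur.alR_galois hg] at h⟩,
     fun t ht => by rw [Mazur.alR_galois hg, hx.2 t ht]⟩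
  -- an eigenvector of the involution
  obtain ⟨ε, v, hv, hv0, hvε, hε⟩ : ∃ (ε : ℤ) (v : ParHom (ℓ * m) (ZMod P.p)),
      v ∈ V₀ ∧ v ≠ 0 ∧ alR hg v = ε • v ∧ ε * ε = 1 := by
    by_cases h1 : ψ + alR hg ψ = 0
    · exact ⟨-1, ψ, hψ, hψ0, by rw [neg_smul, one_smul]; exact eq_neg_of_add_eq_zero_right h1,
        by norm_num⟩
    · exact ⟨1, ψ + alR hg ψ, add_mem hψ (hW₀ ψ hψ), h1,
        by rw [one_smul, alR_add, Mazur.alR_alR, add_comm], by norm_num⟩
  obtain ⟨V, hmem⟩ : ∃ V : AddSubgroup (ParHom (ℓ * m) (ZMod P.p)),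
      ∀ x, x ∈ V ↔ x ∈ V₀ ∧ alR hg x = ε • x := ⟨
    { carrier := {x | x ∈ V₀ ∧ alR hg x = ε • x}
      add_mem' := fun hx hy => ⟨add_mem hx.1 hy.1, by rw [alR_add, hx.2, hy.2, smul_add]⟩
      zero_mem' := ⟨zero_mem _, by
        rw [smul_zero, ← Semistable.alL_apply hg, _root_.map_zero]⟩
      neg_mem' := fun hx => ⟨neg_mem hx.1, by
        rw [← Semistable.alL_apply hg, map_neg, Semistable.alL_apply, hx.2, smul_neg]⟩ },
    fun x => Iff.rfl⟩
  letI : Module (ZMod P.p) V :=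
    AddCommGroup.zmodModule fun x => Subtype.ext (Wild.parHom_prime_nsmul x.1)
  haveI : Nontrivial V := ⟨⟨⟨v, (hmem v).mpr ⟨hv, hvε⟩⟩, 0, fun h => hv0 (congrArg Subtype.val h)⟩⟩
  have hstab : ∀ t : GQ, ∀ x ∈ V, ρ t x ∈ V := fun t x hx' => (hmem _).mpr <|
    have hx := (hmem x).mp hx'
    ⟨⟨hx.1.1.galois t, fun k hk => by
      have hc : t⁻¹ * k * t ∈ torsionKer P := fun y => by
        rw [mul_smul, mul_smul, hk, inv_smul_smul]
      conv_rhs => rw [← hx.1.2 _ hc, ← Module.End.mul_apply, ← map_mul, ← mul_assoc, ← mul_assoc,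
        mul_inv_cancel, one_mul, map_mul, Module.End.mul_apply]⟩,
     by rw [← Mazur.alR_galois hg, hx.2, map_zsmul]⟩
  have hω : freyOmega P σ = ℓ := by
    rw [freyOmega, GalRep.cyc_frobenius P.p hℓ hℓp hA hσ, map_natCast]
  obtain ⟨hq1, hscal⟩ := scalar_of_stable P hirr ρ V hstab
    (fun t x hx => ((hmem x).mp hx).1.1.rel t) (-(ε * ℓ))
    (by linear_combination (ℓ : ℤ) * ℓ * hε) (fun x hx => by
      obtain ⟨hx1, hx2⟩ := (hmem x).mp hx
      have h := hkey x hx1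
      rw [hx2, map_zsmul] at h
      have h' := congrArg (fun y => ε • y) h
      simp only [smul_add, smul_smul, hε, one_smul, smul_zero] at h'
      rw [eq_neg_of_add_eq_zero_left h', neg_smul, mul_smul, natCast_zsmul]) hω
  set c : ZMod P.p := ((-(ε * ℓ) : ℤ) : ZMod P.p)
  rcases hcase with h | h
  · exact h hq1
  obtain ⟨t, ht, hns⟩ := h A hA
  haveI : IsGalois ℚ (torsionFld P) := ⟨⟩
  obtain ⟨k, s, hs, hts⟩ := Mazur.exists_pow_inertia hℓ hA hσ (torsionFld P) ht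
  obtain ⟨z, hz⟩ := ZMod.intCast_surjective (c ^ k)
  obtain ⟨x, hx⟩ := hns z
  refine hx ?_
  have hkr : (σ ^ k * s)⁻¹ * t ∈ torsionKer P := (fix_torsionFld_iff P).mp fun y hy => by
    rw [AlgEquiv.mul_apply, hts y hy, ← AlgEquiv.mul_apply (σ ^ k) s]
    exact (σ ^ k * s).symm_apply_apply y
  have hsx : s • x = x := hunr A hA s hs x
  calc t • x = (σ ^ k * s) • (((σ ^ k * s)⁻¹ * t) • x) := by rw [← mul_smul, mul_inv_cancel_left]
    _ = (σ ^ k) • x := by rw [hkr x, mul_smul, hsx]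
    _ = galoisRepModuleEnd (K := AlgebraicClosure ℚ) ℚ P.freyCurve.toAffine P.p (σ ^ k) x := rfl
    _ = z • x := by
      rw [map_pow, hscal, smul_pow, one_pow, LinearMap.smul_apply, Module.End.one_apply, ← hz,
        Int.cast_smul_eq_zsmul]

end Fermat.Agent.LL
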