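/-
Level lowering by patching: the residual setting at the last level, where every odd prime of the
level is congruent to one modulo `p` and has scalar Frobenius.
-/
import Fermat.Agent.Auto.Output
import Fermat.Agent.TW.Defs
import Fermat.Agent.Deform.MatrixRep

set_option autoImplicit false

noncomputable section

open IsLocalRing
open Fermat.Agent.Galois (GQ)
open Fermat.Agent.Deform (Mat2)

namespace Fermat.Agent.LL

variable (p : ℕ) [Fact p.Prime] (O : Type) [CommRing O] [IsDomain O] [IsDiscreteValuationRing O]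
  [IsAdicComplete (maximalIdeal O) O] [Finite (ResidueField O)]
  [Algebra ℤ_[p] O] [Module.Finite ℤ_[p] O] [CharZero O]

/-- The matrices of a residual representation in a basis. -/
def resMat {k : Type} [Field k] (ρbar : ResidualGaloisRep k)
    (b : Module.Basis (Fin 2) k ρbar.V) : GQ →* Mat2 k :=
  MonoidHom.comp (LinearMap.toMatrixAlgEquiv b).toMulEquiv.toMonoidHom ρbar.ρ

theorem resMat_apply {k : Type} [Field k] (ρbar : ResidualGaloisRep k)
    (b : Module.Basis (Fin 2) k ρbar.V) (σ : GQ) :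
    resMat ρbar b σ = LinearMap.toMatrixAlgEquiv b (ρbar.ρ σ) := rfl

/-- Everything the patching needs from the residual side. -/
structure Setting (ρbar : ResidualGaloisRep (ResidueField O)) (N : ℕ) [NeZero N]
    (S sig : Finset ℕ) (q : ℕ) (a : ℕ → O) : Prop where
  level : Auto.LevelSetting p O ρbar N S sig q a
  prime_S : ∀ l ∈ S, l.Prime
  sig_sub : sig ⊆ S
  p_sig : p ∉ sig
  sqrt_neg_one : ∃ i₀ : O, i₀ * i₀ = -1
  twHyp : ∀ b : Module.Basis (Fin 2) (ResidueField O) ρbar.V, TW.TWHyp p (resMat ρbar b)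
  scalar : ∀ l ∈ sig, ∀ A : ValuationSubring (AlgebraicClosure ℚ), A.LiesOverPrime l →
    ∀ σ ∈ A.decompositionSubgroup ℚ, ∃ c : ResidueField O, ρbar.ρ σ = c • 1
  unramified : ∀ l : ℕ, l.Prime → l ∉ S → ρbar.IsUnramifiedAt l
  steinberg : ∀ l ∈ S, l ≠ p → l ∉ sig → l ∣ N ∧
    ∀ A : ValuationSubring (AlgebraicClosure ℚ), A.LiesOverPrime l →
      (∀ σ ∈ A.inertiaSubgroupIn ℚ, (ρbar.ρ σ - 1) * (ρbar.ρ σ - 1) = 0) ∧
      ∃ σ ∈ A.inertiaSubgroupIn ℚ, ρbar.ρ σ ≠ 1

end Fermat.Agent.LL
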