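/-
Level lowering: the residual setting attached to a Frey package at the last level.
-/
import Fermat.Agent.LL.Setting
import Fermat.Agent.LL.Mazur
import Fermat.Agent.LL.Frey.Rep
import Fermat.Agent.LL.Frey.Coeff
import Fermat.Agent.TW.Select

set_option autoImplicit false
set_option linter.style.haveILetI false

noncomputable section

open IsLocalRing
open Fermat.Agent.Galois (GQ)
open Fermat.Agent.Deform (Mat2 RHasMatrix mapHom)
open scoped Pointwise
open WeierstrassCurve WeierstrassCurve.Affine WeierstrassCurve.Affine.Point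
open Fermat.Agent.EC

namespace Fermat.Agent.LL

set_option maxHeartbeats 1600000 in
/-- The setting exists when all odd primes of the level resist Mazur's principle and `q` cannot be
removed. -/
theorem exists_setting (P : FreyPackage) [Fact P.p.Prime] {N : ℕ} [NeZero N]
    (hcond : P.IsConductorLevel N) (hpN : ¬ P.p ∣ N)
    (hirr : GaloisRepIsIrreducible (K := AlgebraicClosure ℚ) ℚ P.freyCurve P.p)
    (hmod : P.ModularRepOfLevel N) {q : ℕ} (hq : q.Prime) (hq2 : q ≠ 2) (hqN : q ∣ N)
    (hall : ∀ l : ℕ, l.Prime → l ≠ 2 → l ∣ N → (l : ZMod P.p) = 1 ∧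
      ∃ A : ValuationSubring (AlgebraicClosure ℚ), A.LiesOverPrime l ∧ ¬ NonScalarAt P A)
    (hnot : ¬ P.ModularRepOfLevel (N / q)) :
    ∃ (O : Type) (_ : CommRing O) (_ : IsDomain O) (_ : IsDiscreteValuationRing O)
      (_ : IsAdicComplete (maximalIdeal O) O) (_ : Finite (ResidueField O))
      (_ : Algebra ℤ_[P.p] O) (_ : Module.Finite ℤ_[P.p] O) (_ : CharZero O)
      (ρbar : ResidualGaloisRep (ResidueField O)) (S sig : Finset ℕ) (a : ℕ → O),
      Setting P.p O ρbar N S sig q a := by
  classical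
  have hp : P.p.Prime := P.pp
  have hp5 := P.hp5
  have hp2 : P.p ≠ 2 := by omega
  -- the primes
  set S : Finset ℕ := insert P.p N.primeFactors with hSdef
  have hNS : ∀ l : ℕ, l.Prime → l ∣ N → l ∈ S := fun l hl hlN =>
    Finset.mem_insert_of_mem (Nat.mem_primeFactors.mpr ⟨hl, hlN, NeZero.ne N⟩)
  have hpS : P.p ∈ S := Finset.mem_insert_self _ _
  have hSprime : ∀ l ∈ S, l.Prime := fun l hl => by
    rcases Finset.mem_insert.mp hl with rfl | hl
    exacts [hp, (Nat.mem_primeFactors.mp hl).1]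
  set sig : Finset ℕ := N.primeFactors.filter (· ≠ 2) with hsigdef
  have hsig : ∀ l ∈ sig, l.Prime ∧ l ≠ 2 ∧ l ∣ N := fun l hl => by
    obtain ⟨h1, h2⟩ := Finset.mem_filter.mp hl
    exact ⟨(Nat.mem_primeFactors.mp h1).1, h2, (Nat.mem_primeFactors.mp h1).2.1⟩
  obtain ⟨W, a₀, θ₀, hW, hgood, hfrob, hθ₀, htr, hunr2⟩ :=
    exists_frey_system P hmod hcond.squarefree S hNS hpS
  have h2N : 2 ∣ N := by
    by_contra h
    exact not_unramified_two P hirr htr (hunr2 h)
  -- the coefficients
  obtain ⟨O, _, _, _, _, _, _, _, _, ζ, i₀, hchar, hζ, hi₀, g, hg⟩ := exists_coeff P.p hp2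
  haveI := hchar
  set k := ResidueField O
  set ψ := ZMod.castHom (dvd_refl P.p) k with hψdef
  let ρ₀ : ResidualGaloisRep (ZMod P.p) :=
    { V := FreyTorsion P
      finrank_eq := EC.finrank_torsionBy (K := AlgebraicClosure ℚ) P.freyCurve.toAffine P.p
      ρ := galoisRepModuleEnd (K := AlgebraicClosure ℚ) ℚ P.freyCurve.toAffine P.p
      factorsThroughFiniteLevel := by
        obtain ⟨L, hL, h⟩ :=
          EC.exists_finite_level ℚ P.freyCurve.toAffine (K := AlgebraicClosure ℚ) P.p hp.one_le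
        exact ⟨L, hL, fun σ hσ => LinearMap.ext fun x => h σ hσ x⟩ }
  set ρbar := ρ₀.baseChangeAlong ψ with hρbar
  obtain ⟨bk, hbk⟩ := (show RHasMatrix ρ₀ (freyMat P) from ⟨freyBasis P, fun σ => rfl⟩).baseChangeAlong ψ
  have hbk' : ∀ σ, LinearMap.toMatrix bk bk (ρbar.ρ σ) = (freyMat P σ).map ψ := hbk
  have hscal : ∀ σ (c : ZMod P.p), freyMat P σ = c • 1 → ρbar.ρ σ = ψ c • 1 := fun σ c h => by
    refine (LinearMap.toMatrixAlgEquiv bk).injective ?_
    rw [map_smul, map_one]
    refine (hbk' σ).trans ?_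
    rw [h]
    ext i j
    simp [Matrix.one_apply, apply_ite ψ]
  have hone : ∀ σ, (∀ x : FreyTorsion P, σ • x = x) → ρbar.ρ σ = 1 := fun σ h => by
    rw [hscal σ 1 (by rw [(freyMat_eq_one_iff P σ).mpr h, one_smul]), map_one, one_smul]
  have htrace : ∀ σ, LinearMap.trace k ρbar.V (ρbar.ρ σ) = ψ (GalRep.Wild.freyTrace P σ) := fun σ => by
    rw [LinearMap.trace_eq_matrix_trace k bk, hbk', ← trace_freyMat]
    simp only [Matrix.trace_fin_two, Matrix.map_apply, map_add]
  have hdet : ∀ σ, LinearMap.det (ρbar.ρ σ) = ψ (freyOmega P σ) := fun σ => by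
    rw [← LinearMap.det_toMatrix bk, hbk', ← det_freyMat, RingHom.map_det]
    rfl
  have hchp : ∀ σ, LinearMap.charpoly (ρbar.ρ σ) = Polynomial.X ^ 2 -
      Polynomial.C (ψ (GalRep.Wild.freyTrace P σ)) * Polynomial.X +
        Polynomial.C (ψ (freyOmega P σ)) := fun σ => by
    rw [← LinearMap.charpoly_toMatrix (ρbar.ρ σ) bk, Matrix.charpoly_fin_two,
      ← LinearMap.trace_eq_matrix_trace k bk, LinearMap.det_toMatrix, htrace, hdet]
  -- irreducibility over every field
  have key : ∀ (K : Type) [Field K] [Algebra k K] (H : Subgroup GQ), H.Normal →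
      (∀ x : GQ, x * x ∈ H) → ∀ V : Submodule K (ρbar.baseChange K).V,
        (∀ σ ∈ H, ∀ x ∈ V, (ρbar.baseChange K).ρ σ x ∈ V) → V = ⊥ ∨ V = ⊤ := by
    intro K _ _ H hH hsq V hV
    by_contra hcon
    push Not at hcon
    obtain ⟨bK, hbK⟩ := RHasMatrix.baseChange (k' := K)
      (show RHasMatrix ρbar ((mapHom ψ).comp (freyMat P)) from ⟨bk, hbk'⟩)
    obtain ⟨u, huH, hu, hu1⟩ := exists_unipotent_mem P htr H hsq
    have hV1 : Module.finrank K V = 1 := by
      have hlt : Module.finrank K V < Module.finrank K (ρbar.baseChange K).V :=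
        Submodule.finrank_lt (lt_top_iff_ne_top.2 hcon.2).ne
      rw [(ρbar.baseChange K).finrank_eq] at hlt
      have : Module.finrank K V ≠ 0 := fun h => hcon.1 (Submodule.finrank_eq_zero.1 h)
      omega
    obtain ⟨x, hx, hx0⟩ := Submodule.exists_mem_ne_zero_of_ne_bot hcon.1
    refine hx0 (bK.ext_elem fun i => ?_)
    rw [_root_.map_zero, Finsupp.zero_apply]
    refine congrFun (eq_zero_of_eigen (freyMat_no_line P hirr) ((algebraMap k K).comp ψ) hu hu1 hH huH
      (fun j => bK.repr x j) fun h hh => ?_) i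
    obtain ⟨c, hc⟩ := exists_smul_eq_of_finrank_eq_one hV1 (x := (⟨x, hx⟩ : V))
      (fun e => hx0 (congrArg Subtype.val e)) ⟨_, hV h hh x hx⟩
    refine ⟨c, funext fun j => ?_⟩
    have h1 := congrFun (LinearMap.toMatrix_mulVec_repr bK bK ((ρbar.baseChange K).ρ h) x) j
    rw [hbK] at h1
    refine Eq.trans h1 ?_
    rw [← show c • x = (ρbar.baseChange K).ρ h x from congrArg Subtype.val hc, map_smul]
    rfl
  have habs : ρbar.IsAbsolutelyIrreducible := fun V hV =>
    key (AlgebraicClosure k) ⊤ inferInstance (fun x => Subgroup.mem_top _) V fun σ _ => hV σ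
  -- the traces
  choose a ha using fun l => residue_surjective (ψ (a₀ l))
  obtain ⟨ρdet⟩ : Nonempty ((GaloisRepAdic.ofResidualGaloisRep ρbar).DetIsCyclotomic P.p) := by
    refine ⟨?_, fun n σ b hσ => ?_⟩
    · rw [CharP.cast_eq_zero k P.p]
      exact zero_mem _
    rcases Nat.eq_zero_or_pos n with rfl | hn
    · rw [pow_zero, Nat.cast_one, Ideal.span_singleton_one]
      exact Submodule.mem_top
    haveI : NeZero P.p := ⟨hp.ne_zero⟩
    obtain ⟨z, hz⟩ := HasEnoughRootsOfUnity.exists_primitiveRoot (AlgebraicClosure ℚ) P.p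
    obtain ⟨n, rfl⟩ := Nat.exists_eq_add_of_le' hn
    have hω := freyOmega_eq_of_root P hz (hσ z (by rw [pow_succ', pow_mul, hz.pow_eq_one, one_pow]))
    show LinearMap.det (ρbar.ρ σ) - (b : k) ∈ _
    rw [hdet, hω, map_natCast, sub_self]
    exact zero_mem _
  refine ⟨O, inferInstance, inferInstance, inferInstance, inferInstance, inferInstance,
    inferInstance, inferInstance, inferInstance, ρbar, S, sig, a,
    { level :=
        { five_le := hp5
          squarefree := hcond.squarefree
          not_dvd := hpN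
          p_mem := hpS
          level_mem := hNS
          exists_zeta := ⟨ζ, hζ⟩
          absIrr := habs
          charpoly_frob := fun l hl hlS A hA σ hσ => by
            have hlp : l ≠ P.p := fun h => hlS (h ▸ hpS)
            rw [hchp, hfrob l hl hlS A hA σ hσ, ha, freyOmega,
              GalRep.cyc_frobenius P.p hl hlp hA hσ, map_natCast, map_natCast]
          modular := ⟨ψ.comp θ₀, fun l hl hlN hlS => by
            rw [RingHom.comp_apply, hθ₀ l hl hlN hlS, ha]⟩
          sig_spec := fun l hl => by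
            obtain ⟨hlp, hl2, hlN⟩ := hsig l hl
            refine ⟨hlp, hlN, ?_, fun A hA σ hσ => hone σ (EC.frey_unramified P hlp hl2
              (fun h => hpN (h ▸ hlN)) A hA σ hσ)⟩
            exact (ZMod.natCast_eq_natCast_iff l 1 P.p).mp (by
              rw [Nat.cast_one]; exact (hall l hlp hl2 hlN).1)
          q_mem := Finset.mem_filter.mpr
            ⟨Nat.mem_primeFactors.mpr ⟨hq, hqN, NeZero.ne N⟩, hq2⟩
          not_lower := ?_ }
      prime_S := hSprime
      sig_sub := fun l hl => Finset.mem_insert_of_mem (Finset.mem_filter.mp hl).1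
      p_sig := fun h => hpN (hsig _ h).2.2
      sqrt_neg_one := ⟨i₀, hi₀⟩
      twHyp := fun b => TW.twHyp_toMatrix P.p hp2 ρbar habs ρdet
        (fun σ => by
          obtain ⟨α, β, h⟩ := exists_roots_of_primitive hp2 hg (GalRep.Wild.freyTrace P σ) (freyOmega P σ)
          exact ⟨α, β, (hchp σ).trans h⟩)
        (fun K _ _ G hG => key K G (Subgroup.normal_of_index_eq_two hG)
          (Subgroup.mul_self_mem_of_index_two hG)) b
      scalar := fun l hl A' hA' σ hσ => by
        obtain ⟨hlp, hl2, hlN⟩ := hsig l hl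
        obtain ⟨-, A, hA, hns⟩ := hall l hlp hl2 hlN
        unfold NonScalarAt at hns
        push Not at hns
        obtain ⟨t, rfl⟩ := Galois.exists_smul_eq_of_liesOverPrime hlp hA hA'
        have hd : t⁻¹ * σ * t ∈ A.decompositionSubgroup ℚ := by
          have hs : σ • t • A = t • A := hσ
          show (t⁻¹ * σ * t) • A = A
          rw [mul_smul, mul_smul, hs, inv_smul_smul]
        obtain ⟨c, hc⟩ := hns _ hd
        refine ⟨ψ (c : ZMod P.p), hscal σ _ (freyMat_eq_smul_one P σ c fun x => ?_)⟩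
        have h1 := congrArg (fun y : FreyTorsion P => t • y) (hc (t⁻¹ • x))
        simp only [← mul_smul] at h1
        rw [show t * (t⁻¹ * σ * t * t⁻¹) = σ by group, smul_comm t c (t⁻¹ • x), smul_inv_smul] at h1
        exact h1
      unramified := fun l hl hlS A hA σ hσ => hone σ (EC.frey_unramified P hl
        (fun h => hlS (h ▸ hNS 2 Nat.prime_two h2N)) (fun h => hlS (h ▸ hpS)) A hA σ hσ)
      steinberg := fun l hl hlp hlsig => by
        obtain rfl : l = 2 := by
          rcases Finset.mem_insert.mp hl with h | h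
          · exact absurd h hlp
          · by_contra h2
            exact hlsig (Finset.mem_filter.mpr ⟨h, h2⟩)
        refine ⟨h2N, fun A hA => ⟨fun σ hσ => ?_, ?_⟩⟩
        · refine (LinearMap.toMatrixAlgEquiv bk).injective ?_
          rw [map_mul, map_sub, map_one, _root_.map_zero]
          show (LinearMap.toMatrix bk bk (ρbar.ρ σ) - 1) * (LinearMap.toMatrix bk bk (ρbar.ρ σ) - 1) = 0
          rw [hbk', show (freyMat P σ).map ψ = ψ.mapMatrix (freyMat P σ) from rfl,
            ← map_one ψ.mapMatrix, ← map_sub, ← map_mul, sq_zero_inertia_two P htr hA hσ, _root_.map_zero]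
        · obtain ⟨σ, hσ, x, hx⟩ := exists_inertia_two_moves P hA
          refine ⟨σ, hσ, fun h => hx ((freyMat_eq_one_iff P σ).mp ?_ x)⟩
          refine Matrix.map_injective ψ.injective ((hbk' σ).symm.trans ?_)
          rw [h, LinearMap.toMatrix_one]
          exact (Matrix.map_one _ (_root_.map_zero ψ) (map_one ψ)).symm }⟩
  intro _ S' hSS' θ
  by_contra hcon
  push Not at hcon
  have hmN : N / q ∣ N := Nat.div_dvd_of_dvd hqN
  have hΔ := GalRep.Wild.delta_ne_zero P hW
  set S'' : Finset ℕ := S' ∪ W.Δ.natAbs.primeFactors with hS''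
  have hsub : (↑S' : Set ℕ) ⊆ ↑S'' := by
    rw [hS'', Finset.coe_union]
    exact Set.subset_union_left
  refine hnot (GalRep.Wild.modularRepOfLevel_of_theta P hW S''
    (fun l hl hlS => ⟨fun h => hlS (Finset.mem_union_right _ (Nat.mem_primeFactors.mpr
      ⟨hl, Int.natCast_dvd.mp h, Int.natAbs_ne_zero.mpr hΔ⟩)),
      fun h => hlS (Finset.mem_union_left _ (hSS' (h ▸ hpS)))⟩)
    (fun l hl hlm => Finset.mem_union_left _ (hSS' (hNS l hl (hlm.trans hmN))))
    (θ.comp (Subalgebra.inclusion (CuspForm.heckeAlgebra_mono hsub)).toRingHom)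
    fun l hl hlm hlS'' => ?_)
  have hlS' : l ∉ (↑S' : Set ℕ) := fun h => hlS'' (hsub h)
  have hlS : l ∉ S := fun h => hlS' (hSS' h)
  have hgd : W.IsGoodPrimeFor l := fun h => hlS'' (Finset.mem_coe.mpr (Finset.mem_union_right _
    (Nat.mem_primeFactors.mpr ⟨hl, Int.natCast_dvd.mp h, Int.natAbs_ne_zero.mpr hΔ⟩)))
  show θ (CuspForm.heckeAlgebra.T hl hlm hlS') = _
  rw [hcon l hl hlm hlS', ha, hgood l hl hlS hgd, map_intCast]

end Fermat.Agent.LL
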