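/-
Level lowering by patching: the variables and equations of the local rings at the auxiliary primes.
For each such prime `ℓ` the variables are `(a, b, c)` for tame inertia minus its scalar part and
`(e, f, g)` for the traceless part of Frobenius; there are `g₀` further free variables.
-/
import Mathlib

set_option autoImplicit false

noncomputable section

namespace Fermat.Agent.LL

variable (ι : Type) (g₀ : ℕ)

/-- The variables. -/
abbrev Var := (ι × Fin 6) ⊕ Fin g₀

/-- The index set of the linear forms cutting out the isolated points. -/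
abbrev LinIx := (ι × Fin 3) ⊕ Fin g₀

variable {ι g₀} {R : Type*} [Ring R]

/-- `a = u₁₁` at `ℓ`. -/
def va (z : Var ι g₀ → R) (l : ι) : R := z (.inl (l, 0))
/-- `b = u₁₂` at `ℓ`. -/
def vb (z : Var ι g₀ → R) (l : ι) : R := z (.inl (l, 1))
/-- `c = u₂₁` at `ℓ`. -/
def vc (z : Var ι g₀ → R) (l : ι) : R := z (.inl (l, 2))
/-- `e = v₁₁` at `ℓ`. -/
def ve (z : Var ι g₀ → R) (l : ι) : R := z (.inl (l, 3))
/-- `f = v₁₂` at `ℓ`. -/
def vf (z : Var ι g₀ → R) (l : ι) : R := z (.inl (l, 4))
/-- `g = v₂₁` at `ℓ`. -/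
def vg (z : Var ι g₀ → R) (l : ι) : R := z (.inl (l, 5))

/-- The four equations at each prime: `a² + bc = d²` and `(a, b, c) ∥ (e, f, g)`. -/
def rel (d : R) (z : Var ι g₀ → R) : ι × Fin 4 → R
  | (l, 0) => va z l * va z l + vb z l * vc z l - d * d
  | (l, 1) => va z l * vf z l - vb z l * ve z l
  | (l, 2) => va z l * vg z l - vc z l * ve z l
  | (l, 3) => vb z l * vg z l - vc z l * vf z l

/-- The quadratic form `e² + fg` of traceless Frobenius at `ℓ`. -/
def quad (z : Var ι g₀ → R) (l : ι) : R := ve z l * ve z l + vf z l * vg z l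

/-- The linear forms `e`, `f + c`, `g + b` and the free variables. -/
def lin (z : Var ι g₀ → R) : LinIx ι g₀ → R
  | .inl (l, 0) => ve z l
  | .inl (l, 1) => vf z l + vc z l
  | .inl (l, 2) => vg z l + vb z l
  | .inr j => z (.inr j)

variable {T : Type*} [Ring T] {F : Type*} [FunLike F R T] [RingHomClass F R T]

theorem map_rel (φ : F) (d : R) (z : Var ι g₀ → R) (x : ι × Fin 4) :
    φ (rel d z x) = rel (φ d) (fun v => φ (z v)) x := by
  obtain ⟨l, k⟩ := x
  fin_cases k <;> simp [rel, va, vb, vc, ve, vf, vg]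

theorem map_quad (φ : F) (z : Var ι g₀ → R) (l : ι) :
    φ (quad z l) = quad (fun v => φ (z v)) l := by
  simp [quad, ve, vf, vg]

theorem map_lin (φ : F) (z : Var ι g₀ → R) (x : LinIx ι g₀) :
    φ (lin z x) = lin (fun v => φ (z v)) x := by
  rcases x with ⟨l, k⟩ | j
  · fin_cases k <;> simp [lin, vb, vc, ve, vf, vg]
  · simp [lin]

end Fermat.Agent.LL
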