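/-
Level lowering by patching: patched data. Matrix data satisfying the equations modulo deeper and
deeper ideals give such data over the whole power series ring.
-/
import Fermat.Agent.LL.Relations
import Fermat.Agent.LL.Compact
import Fermat.Agent.LL.Algebra.Complete

set_option autoImplicit false

noncomputable section

open IsLocalRing MvPowerSeries

namespace Fermat.Agent.LL

variable {O : Type} [CommRing O] [IsDomain O] [IsDiscreteValuationRing O]
  {ι : Type} [Fintype ι] {g₀ r s : ℕ}

/-- Matrix data over a quotient `φ` of `O⟦y₁, …, y_r⟧`: commuting residually nilpotent operators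
satisfying the equations up to nilpotence `E`, the parameters in their span up to the power `E`, and
the quadratic form at `q` divisible by `ϖ` up to the power `E`. -/
structure IsDatum (ϖ δ : O) (q : ι) (E : ℕ) {R : Type} [CommRing R]
    (φ : MvPowerSeries (Fin r) O →+* R) (Z : Var ι g₀ → Matrix (Fin s) (Fin s) R)
    (W : Fin r → Option (Var ι g₀) → Matrix (Fin s) (Fin s) R) (Y : Matrix (Fin s) (Fin s) R) :
    Prop where
  comm : ∀ v w, Commute (Z v) (Z w)
  nilp : ∀ v i j, (Z v ^ E) i j ∈ (maximalIdeal (MvPowerSeries (Fin r) O)).map φ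
  rel_eq : ∀ x, rel (algebraMap R _ (φ (C δ))) Z x ^ E = 0
  param : ∀ j, algebraMap R (Matrix (Fin s) (Fin s) R) (φ (X j)) ^ E =
    (∑ v, Z v * W j (some v)) + algebraMap R _ (φ (C ϖ)) * W j none
  quad_eq : quad Z q ^ E = algebraMap R _ (φ (C ϖ)) * Y

variable {ϖ δ : O} {q : ι} {E : ℕ} {R T : Type} [CommRing R] [CommRing T]

theorem mapMatrix_algebraMap (ψ : R →+* T) (a : R) :
    ψ.mapMatrix (algebraMap R (Matrix (Fin s) (Fin s) R) a) = algebraMap T _ (ψ a) := by
  ext i j
  simp [Matrix.algebraMap_matrix_apply, apply_ite ψ]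

theorem IsDatum.map {φ : MvPowerSeries (Fin r) O →+* R}
    {Z : Var ι g₀ → Matrix (Fin s) (Fin s) R} {W : Fin r → Option (Var ι g₀) → Matrix (Fin s) (Fin s) R}
    {Y : Matrix (Fin s) (Fin s) R} (h : IsDatum ϖ δ q E φ Z W Y) (ψ : R →+* T) :
    IsDatum ϖ δ q E (ψ.comp φ) (fun v => ψ.mapMatrix (Z v)) (fun j v => ψ.mapMatrix (W j v))
      (ψ.mapMatrix Y) where
  comm v w := (h.comm v w).map ψ.mapMatrix
  nilp v i j := by
    rw [← map_pow, ← Ideal.map_map, RingHom.mapMatrix_apply, Matrix.map_apply]
    exact Ideal.mem_map_of_mem ψ (h.nilp v i j)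
  rel_eq x := by
    rw [RingHom.comp_apply, ← mapMatrix_algebraMap ψ, ← map_rel, ← map_pow, h.rel_eq, map_zero]
  param j := by
    rw [RingHom.comp_apply, ← mapMatrix_algebraMap ψ, ← map_pow, h.param, map_add, map_sum,
      map_mul, mapMatrix_algebraMap, RingHom.comp_apply]
    simp [map_mul]
  quad_eq := by
    rw [RingHom.comp_apply, ← mapMatrix_algebraMap ψ, ← map_quad, ← map_pow, h.quad_eq, map_mul]

variable [IsAdicComplete (maximalIdeal O) O] [Finite (ResidueField O)]

theorem finite_residueField_powerSeries (r : ℕ) :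
    Finite (ResidueField (MvPowerSeries (Fin r) O)) := by
  refine Finite.of_surjective (α := ResidueField O) (Ideal.Quotient.lift _
    ((residue (MvPowerSeries (Fin r) O)).comp C) (fun a ha => ?_)) fun y => ?_
  · rw [RingHom.comp_apply, residue_eq_zero_iff, mem_maximalIdeal, mem_nonunits_iff,
      isUnit_iff_constantCoeff, constantCoeff_C]
    exact ha
  · obtain ⟨w, rfl⟩ := Ideal.Quotient.mk_surjective y
    refine ⟨residue O (constantCoeff w), ?_⟩
    change residue _ (C (constantCoeff w)) = residue _ w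
    rw [← sub_eq_zero, ← map_sub, residue_eq_zero_iff, mem_maximalIdeal, mem_nonunits_iff,
      isUnit_iff_constantCoeff]
    simp

/-- Compactness: data modulo arbitrarily small ideals give data over `O⟦y₁, …, y_r⟧`. -/
theorem exists_datum
    (h : ∀ n, ∃ (J : Ideal (MvPowerSeries (Fin r) O)) (_ : J ≤ maximalIdeal _ ^ n)
      (Z : Var ι g₀ → Matrix (Fin s) (Fin s) (MvPowerSeries (Fin r) O ⧸ J))
      (W : Fin r → Option (Var ι g₀) → Matrix (Fin s) (Fin s) (MvPowerSeries (Fin r) O ⧸ J))
      (Y : Matrix (Fin s) (Fin s) (MvPowerSeries (Fin r) O ⧸ J)),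
      IsDatum ϖ δ q E (Ideal.Quotient.mk J) Z W Y) :
    ∃ Z W Y, IsDatum (g₀ := g₀) (s := s) ϖ δ q E (RingHom.id (MvPowerSeries (Fin r) O)) Z W Y := by
  haveI := finite_residueField_powerSeries (O := O) r
  let α := (Var ι g₀ ⊕ (Fin r × Option (Var ι g₀)) ⊕ Unit) × Fin s × Fin s
  let mZ : ∀ {R : Type}, (α → R) → Var ι g₀ → Matrix (Fin s) (Fin s) R :=
    fun x v => Matrix.of fun i j => x (.inl v, i, j)
  let mW : ∀ {R : Type}, (α → R) → Fin r → Option (Var ι g₀) → Matrix (Fin s) (Fin s) R :=
    fun x k v => Matrix.of fun i j => x (.inr (.inl (k, v)), i, j)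
  let mY : ∀ {R : Type}, (α → R) → Matrix (Fin s) (Fin s) R :=
    fun x => Matrix.of fun i j => x (.inr (.inr ()), i, j)
  let P : ∀ n, (α → MvPowerSeries (Fin r) O ⧸ maximalIdeal _ ^ n) → Prop := fun n x =>
    IsDatum ϖ δ q E (Ideal.Quotient.mk _) (mZ x) (mW x) (mY x)
  obtain ⟨x, hx⟩ := exists_of_forall_quotient (α := α) P (fun {m n} hmn x hx => by
      have := hx.map (Ideal.Quotient.factor (Ideal.pow_le_pow_right hmn))
      rw [Ideal.Quotient.factor_comp_mk] at this
      exact this) (fun n => by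
      obtain ⟨J, hJ, Z, W, Y, hD⟩ := h n
      refine ⟨fun a => Ideal.Quotient.factor hJ (match a.1 with
        | .inl v => Z v a.2.1 a.2.2
        | .inr (.inl (k, v)) => W k v a.2.1 a.2.2
        | .inr (.inr ()) => Y a.2.1 a.2.2), ?_⟩
      have := hD.map (Ideal.Quotient.factor hJ)
      rw [Ideal.Quotient.factor_comp_mk] at this
      exact this)
  refine ⟨mZ x, mW x, mY x, ?_⟩
  set m := maximalIdeal (MvPowerSeries (Fin r) O) with hm
  have eqv : ∀ {A B : Matrix (Fin s) (Fin s) (MvPowerSeries (Fin r) O)},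
      (∀ n, (Ideal.Quotient.mk (m ^ n)).mapMatrix A = (Ideal.Quotient.mk (m ^ n)).mapMatrix B) →
      A = B := fun {A B} hAB => by
    refine Matrix.ext fun i j => ?_
    refine sub_eq_zero.mp (IsHausdorff.haus (I := m) inferInstance _ fun n => ?_)
    rw [SModEq.zero, smul_eq_mul, Ideal.mul_top, ← Ideal.Quotient.eq]
    exact congrFun (congrFun (congrArg (fun M => (M : Matrix _ _ _)) (hAB n)) i) j
  have hZ : ∀ n v, (Ideal.Quotient.mk (m ^ n)).mapMatrix (mZ x v) =
      mZ (fun a => Ideal.Quotient.mk (m ^ n) (x a)) v := fun n v => rfl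
  constructor
  · exact fun v w => eqv fun n => by rw [map_mul, map_mul, hZ, hZ]; exact (hx n).comm v w
  · intro v i j
    have := (hx 1).nilp v i j
    rw [← hZ, ← map_pow, RingHom.mapMatrix_apply, Matrix.map_apply, ← Ideal.mem_comap,
      Ideal.comap_map_of_surjective' _ Ideal.Quotient.mk_surjective, Ideal.mk_ker, pow_one,
      sup_idem] at this
    rwa [Ideal.map_id]
  · exact fun y => eqv fun n => by
      rw [map_pow, map_rel, RingHom.id_apply, mapMatrix_algebraMap, map_zero]
      exact (hx n).rel_eq y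
  · exact fun k => eqv fun n => by
      rw [map_pow, RingHom.id_apply, mapMatrix_algebraMap, map_add, map_sum, map_mul,
        RingHom.id_apply, mapMatrix_algebraMap]
      simp only [map_mul]
      exact (hx n).param k
  · exact eqv fun n => by
      rw [map_pow, map_quad, map_mul, RingHom.id_apply, mapMatrix_algebraMap]
      exact (hx n).quad_eq

end Fermat.Agent.LL
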