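/-
Level lowering by patching: the support. Exact patched data give a complete local domain, finite
over `O⟦y₁, …, y_r⟧`, with a tuple satisfying the equations, whose primes above `ϖ` kill the
quadratic form at `q` and whose only prime containing the whole tuple and `ϖ` is the maximal ideal.
-/
import Fermat.Agent.LL.Patch

set_option autoImplicit false

noncomputable section

open IsLocalRing MvPowerSeries
open scoped IsMulCommutative

namespace Fermat.Agent.LL

/-- In a commutative subalgebra of matrices, an element in the left span of elements of a prime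
lies in that prime. -/
theorem mem_of_coe_eq_sum {S : Type} [CommRing S] {s : ℕ}
    (A : Subalgebra S (Matrix (Fin s) (Fin s) S)) [IsMulCommutative A]
    (P : Ideal A) (hP : P.IsPrime) {κ : Type} [Fintype κ] (a : A) (z : κ → A)
    (X : κ → Matrix (Fin s) (Fin s) S) (hz : ∀ i, z i ∈ P)
    (h : (a : Matrix (Fin s) (Fin s) S) = ∑ i, (z i : Matrix (Fin s) (Fin s) S) * X i) :
    a ∈ P := by
  let M := Matrix (Fin s) (Fin s) S
  haveI : Module.Finite A M := Module.Finite.of_restrictScalars_finite S A M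
  let f : Module.End A M := algebraMap A (Module.End A (Matrix (Fin s) (Fin s) S)) a
  have hf : LinearMap.range f ≤ P • (⊤ : Submodule A M) := by
    rintro _ ⟨m, rfl⟩
    change (a : M) * m ∈ _
    rw [h, Finset.sum_mul]
    refine Submodule.sum_mem _ fun i _ => ?_
    rw [mul_assoc]
    exact Submodule.smul_mem_smul (hz i) (Submodule.mem_top (x := X i * m))
  obtain ⟨p, hp, -, hcoeff, h0⟩ :=
    LinearMap.exists_monic_and_natDegree_eq_and_coeff_mem_pow_and_aeval_eq_zero A f P hf
  rw [Polynomial.aeval_algebraMap_apply] at h0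
  have h1 : (((Polynomial.aeval a p) : A) : M) = 0 := by
    have := LinearMap.congr_fun h0 (1 : M)
    change ((Polynomial.aeval a p : A) : M) * 1 = 0 at this
    rwa [mul_one] at this
  have h2 : Polynomial.aeval a p = 0 := Subtype.ext h1
  rw [Polynomial.aeval_eq_sum_range, Finset.sum_range_succ, hp.coeff_natDegree, one_smul] at h2
  refine hP.mem_of_pow_mem p.natDegree ?_
  rw [eq_neg_of_add_eq_zero_right h2]
  refine neg_mem (Submodule.sum_mem _ fun k hk => Ideal.mul_mem_right _ _ ?_)
  exact Ideal.pow_le_self (by simp at hk; omega) (hcoeff k)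

variable {O : Type} [CommRing O] [IsDomain O] [IsDiscreteValuationRing O]
  {ι : Type} [Fintype ι] {g₀ r s : ℕ} {ϖ δ : O} {q : ι} {E : ℕ}

/-- The domain carved out of the patched data. -/
theorem exists_point [IsAdicComplete (maximalIdeal O) O]
    {Z : Var ι g₀ → Matrix (Fin s) (Fin s) (MvPowerSeries (Fin r) O)}
    {W : Fin r → Option (Var ι g₀) → Matrix (Fin s) (Fin s) (MvPowerSeries (Fin r) O)}
    {Y : Matrix (Fin s) (Fin s) (MvPowerSeries (Fin r) O)}
    (h : IsDatum ϖ δ q E (RingHom.id (MvPowerSeries (Fin r) O)) Z W Y) (hs : 0 < s) :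
    ∃ (B : Type) (_ : CommRing B) (_ : IsDomain B) (_ : Algebra (MvPowerSeries (Fin r) O) B)
      (_ : Module.Finite (MvPowerSeries (Fin r) O) B) (_ : IsLocalRing B) (z : Var ι g₀ → B),
      Function.Injective (algebraMap (MvPowerSeries (Fin r) O) B) ∧
      (∀ v, z v ∈ maximalIdeal B) ∧
      (∀ x, rel (algebraMap (MvPowerSeries (Fin r) O) B (C δ)) z x = 0) ∧
      (∀ P : Ideal B, P.IsPrime → algebraMap (MvPowerSeries (Fin r) O) B (C ϖ) ∈ P → (∀ v, z v ∈ P) →
        ∀ j, algebraMap (MvPowerSeries (Fin r) O) B (X j) ∈ P) ∧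
      (∀ P : Ideal B, P.IsPrime → algebraMap (MvPowerSeries (Fin r) O) B (C ϖ) ∈ P →
        quad z q ∈ P) := by
  classical
  let S := MvPowerSeries (Fin r) O
  let M := Matrix (Fin s) (Fin s) S
  let A := Algebra.adjoin S (Set.range Z)
  haveI : IsMulCommutative A := Algebra.isMulCommutative_adjoin S (by
    rintro _ ⟨v, rfl⟩ _ ⟨w, rfl⟩; exact h.comm v w)
  haveI : Module.Finite S A := Module.Finite.of_injective A.val.toLinearMap Subtype.val_injective
  haveI : Nonempty (Fin s) := ⟨⟨0, hs⟩⟩
  let zA : Var ι g₀ → A := fun v => ⟨Z v, Algebra.subset_adjoin ⟨v, rfl⟩⟩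
  have hinjA : Function.Injective (algebraMap S A) := fun a b hab => by
    have := congrFun (congrFun (congrArg Subtype.val hab) ⟨0, hs⟩) ⟨0, hs⟩
    simpa [Matrix.algebraMap_matrix_apply] using this
  -- residual nilpotence
  have hnil : ∀ P : Ideal A, P.IsPrime → (∀ a ∈ maximalIdeal S, algebraMap S A a ∈ P) →
      ∀ v, zA v ∈ P := by
    intro P hP hm v
    refine hP.mem_of_pow_mem E (mem_of_coe_eq_sum A P hP (κ := Fin s × Fin s) _
      (fun ij => algebraMap S A ((Z v ^ E) ij.1 ij.2))
      (fun ij => Matrix.single ij.1 ij.2 1) (fun ij => hm _ ?_) ?_)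
    · simpa using h.nilp v ij.1 ij.2
    · change Z v ^ E = _
      conv_lhs => rw [Matrix.matrix_eq_sum_single (Z v ^ E)]
      rw [Fintype.sum_prod_type]
      refine Finset.sum_congr rfl fun i _ => Finset.sum_congr rfl fun j _ => ?_
      change _ = algebraMap S M _ * _
      rw [← Algebra.smul_def, Matrix.smul_single, smul_eq_mul, mul_one]
  -- every element is a scalar modulo the tuple
  have hres : ∀ a : A, ∃ c : S, a - algebraMap S A c ∈ Ideal.span (Set.range zA) := by
    rintro ⟨a, ha⟩
    induction ha using Algebra.adjoin_induction with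
    | mem x hx =>
      obtain ⟨v, rfl⟩ := hx
      exact ⟨0, by simpa using (Ideal.subset_span ⟨v, rfl⟩ : zA v ∈ Ideal.span (Set.range zA))⟩
    | algebraMap c => exact ⟨c, by
        convert zero_mem (Ideal.span (Set.range zA))
        exact sub_eq_zero.mpr (Subtype.ext rfl)⟩
    | add x y hx hy ihx ihy =>
      obtain ⟨c, hc⟩ := ihx
      obtain ⟨d, hd⟩ := ihy
      refine ⟨c + d, ?_⟩
      convert add_mem hc hd using 1
      rw [map_add, show (⟨x + y, add_mem hx hy⟩ : A) = ⟨x, hx⟩ + ⟨y, hy⟩ from rfl]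
      abel
    | mul x y hx hy ihx ihy =>
      obtain ⟨c, hc⟩ := ihx
      obtain ⟨d, hd⟩ := ihy
      refine ⟨c * d, ?_⟩
      convert add_mem (Ideal.mul_mem_right (⟨y, hy⟩ : A) _ hc)
        (Ideal.mul_mem_left _ (algebraMap S A c) hd) using 1
      rw [map_mul, show (⟨x * y, mul_mem hx hy⟩ : A) = ⟨x, hx⟩ * ⟨y, hy⟩ from rfl]
      ring
  obtain ⟨Q, -, hQ, hQ'⟩ := Ideal.exists_ideal_over_prime_of_isIntegral (⊥ : Ideal S) (⊥ : Ideal A)
    (by rw [← RingHom.ker_eq_comap_bot, (RingHom.injective_iff_ker_eq_bot _).mp hinjA])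
  let π := Ideal.Quotient.mk Q
  let B := A ⧸ Q
  haveI : Module.Finite S B := Module.Finite.of_surjective (Ideal.Quotient.mkₐ S Q).toLinearMap
    Ideal.Quotient.mk_surjective
  haveI : IsDomain B := Ideal.Quotient.isDomain Q
  have hinj : Function.Injective (algebraMap S B) := by
    rw [RingHom.injective_iff_ker_eq_bot]
    have : algebraMap S B = π.comp (algebraMap S A) := rfl
    rw [this, RingHom.ker_eq_comap_bot, ← Ideal.comap_comap, ← RingHom.ker_eq_comap_bot π,
      Ideal.mk_ker, hQ']
  -- maximal ideals of B contain the maximal ideal of S and the tuple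
  have hmax : ∀ P : Ideal B, P.IsMaximal →
      P.comap (algebraMap S B) = maximalIdeal S ∧ ∀ v, π (zA v) ∈ P := by
    intro P hP
    have hc : P.comap (algebraMap S B) = maximalIdeal S :=
      IsLocalRing.eq_maximalIdeal (Ideal.isMaximal_comap_of_isIntegral_of_isMaximal P)
    refine ⟨hc, fun v => ?_⟩
    refine Ideal.mem_comap.mp (hnil (P.comap π) (hP.isPrime.comap π) (fun a ha => ?_) v)
    rw [← hc] at ha
    exact ha
  haveI : IsLocalRing B := by
    refine IsLocalRing.of_unique_max_ideal ?_
    obtain ⟨P, hP⟩ := Ideal.exists_maximal B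
    refine ⟨P, hP, fun P' hP' => ?_⟩
    refine (hP'.eq_of_le hP.ne_top fun b hb => ?_)
    obtain ⟨a, rfl⟩ := Ideal.Quotient.mk_surjective b
    obtain ⟨c, hc⟩ := hres a
    have hsub : ∀ P₀ : Ideal B, P₀.IsMaximal → π (a - algebraMap S A c) ∈ P₀ := fun P₀ h₀ =>
      (Ideal.span_le.mpr (by rintro _ ⟨v, rfl⟩; exact (hmax P₀ h₀).2 v) :
        Ideal.span (Set.range zA) ≤ P₀.comap π) hc
    have h1 := sub_mem hb (hsub P' hP')
    rw [← map_sub, sub_sub_cancel] at h1
    have h2 : c ∈ P'.comap (algebraMap S B) := h1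
    rw [(hmax P' hP').1, ← (hmax P hP).1] at h2
    have h3 := add_mem (hsub P hP) (show π (algebraMap S A c) ∈ P from h2)
    rwa [← map_add, sub_add_cancel] at h3
  refine ⟨B, inferInstance, inferInstance, inferInstance, inferInstance, inferInstance,
    fun v => π (zA v), hinj, fun v => (hmax _ (maximalIdeal.isMaximal B)).2 v, fun x => ?_,
    fun P hP hϖ hz j => ?_, fun P hP hϖ => ?_⟩
  · have hA : rel (algebraMap S A (C δ)) zA x ^ E = 0 := Subtype.ext (by
      change A.val (rel (algebraMap S A (C δ)) zA x ^ E) = 0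
      rw [map_pow, map_rel]
      exact h.rel_eq x)
    refine eq_zero_of_pow_eq_zero (n := E) ?_
    rw [show algebraMap S B (C δ) = π (algebraMap S A (C δ)) from rfl, ← map_rel, ← map_pow, hA,
      map_zero]
  · refine hP.mem_of_pow_mem E ?_
    change π (algebraMap S A (X j)) ^ E ∈ P
    rw [← map_pow]
    refine mem_of_coe_eq_sum A (P.comap π) (hP.comap π) (algebraMap S A (X j) ^ E)
      (κ := Option (Var ι g₀)) (fun o => o.elim (algebraMap S A (C ϖ)) zA) (W j)
      (fun o => by cases o with | none => exact hϖ | some v => exact hz v) ?_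
    rw [Fintype.sum_option, add_comm]
    exact h.param j
  · refine hP.mem_of_pow_mem E ?_
    rw [← map_quad π zA q, ← map_pow]
    refine mem_of_coe_eq_sum A (P.comap π) (hP.comap π) (quad zA q ^ E) (κ := Unit)
      (fun _ => algebraMap S A (C ϖ)) (fun _ => Y) (fun _ => hϖ) ?_
    change A.val (quad zA q ^ E) = _
    rw [map_pow, map_quad, Fintype.sum_unique]
    exact h.quad_eq

end Fermat.Agent.LL
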