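/-
Level lowering by patching: the patching theorem. Modules, free of a fixed rank over deeper and
deeper quotients of `O⟦y₁, …, y_r⟧` (`r = 3·#ι + g₀`), with operators satisfying the local equations,
generating the parameters and making the quadratic form at `q` divisible by `ϖ`, cannot exist.
-/
import Fermat.Agent.LL.Support
import Fermat.Agent.LL.Quadric.Main

set_option autoImplicit false

noncomputable section

open IsLocalRing MvPowerSeries

namespace Fermat.Agent.LL

variable {O : Type} [CommRing O] [IsDomain O] [IsDiscreteValuationRing O]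
  {ι : Type} [Fintype ι] {g₀ r s : ℕ}

/-- Operators on a free module over a quotient give matrix data. -/
theorem exists_matrix_datum {ϖ δ : O} {q : ι} {E : ℕ} {R : Type} [CommRing R]
    (φ : MvPowerSeries (Fin r) O →+* R) {M : Type} [AddCommGroup M] [Module R M]
    (b : Module.Basis (Fin s) R M) (z : Var ι g₀ → Module.End R M)
    (hcomm : ∀ v w, Commute (z v) (z w))
    (hnil : ∀ v, LinearMap.range (z v ^ E) ≤
      (maximalIdeal (MvPowerSeries (Fin r) O)).map φ • (⊤ : Submodule R M))
    (hrel : ∀ x, rel (algebraMap R (Module.End R M) (φ (C δ))) z x ^ E = 0)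
    (hparam : ∀ j, LinearMap.range (algebraMap R (Module.End R M) (φ (X j)) ^ E) ≤
      (⨆ v, LinearMap.range (z v)) ⊔ LinearMap.range (algebraMap R (Module.End R M) (φ (C ϖ))))
    (hquad : LinearMap.range (quad z q ^ E) ≤
      LinearMap.range (algebraMap R (Module.End R M) (φ (C ϖ)))) :
    ∃ Z W Y, IsDatum (g₀ := g₀) (s := s) ϖ δ q E φ Z W Y := by
  classical
  let T := (LinearMap.toMatrixAlgEquiv b : Module.End R M ≃ₐ[R] Matrix (Fin s) (Fin s) R)
  have hT : ∀ a : R, algebraMap R (Matrix (Fin s) (Fin s) R) a = T (algebraMap R _ a) :=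
    fun a => (T.commutes a).symm
  let sumMap : (Var ι g₀ → M) →ₗ[R] M := ∑ v, (z v).comp (LinearMap.proj v)
  have hsum : (⨆ v, LinearMap.range (z v)) ≤ LinearMap.range sumMap := by
    refine iSup_le fun v => ?_
    rintro _ ⟨x, rfl⟩
    refine ⟨Pi.single v x, ?_⟩
    simp only [sumMap, LinearMap.coe_sum, Finset.sum_apply, LinearMap.comp_apply, LinearMap.proj_apply]
    rw [Finset.sum_eq_single v (fun w _ hw => by rw [Pi.single_eq_of_ne hw, map_zero])
      (fun hv => absurd (Finset.mem_univ v) hv), Pi.single_eq_same]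
  choose a ha c hc hac using fun (j : Fin r) (i : Fin s) => Submodule.mem_sup.mp
    (hparam j (LinearMap.mem_range_self (algebraMap R (Module.End R M) (φ (X j)) ^ E) (b i)))
  choose x hx using fun j i => hsum (ha j i)
  choose x₀ hx₀ using hc
  choose y hy using fun i : Fin s => hquad (LinearMap.mem_range_self (quad z q ^ E) (b i))
  refine ⟨fun v => T (z v), fun j o => o.elim (T (b.constr R (x₀ j))) (fun v => T (b.constr R fun i => x j i v)), T (b.constr R y),
    fun v w => (hcomm v w).map T, fun v i j => ?_, fun x => ?_, fun j => ?_, ?_⟩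
  · rw [← map_pow]
    change LinearMap.toMatrixAlgEquiv b (z v ^ E) i j ∈ _
    rw [LinearMap.toMatrixAlgEquiv_apply]
    have h := hnil v (LinearMap.mem_range_self (z v ^ E) (b j))
    refine Submodule.smul_induction_on
      (p := fun m => b.repr m i ∈ (maximalIdeal (MvPowerSeries (Fin r) O)).map φ) h
      (fun a ha m _ => ?_) (fun m m' hm hm' => by
        rw [map_add, Finsupp.add_apply]; exact add_mem hm hm')
    rw [map_smul, Finsupp.smul_apply, smul_eq_mul]
    exact Ideal.mul_mem_right _ _ ha
  · rw [hT, ← map_rel, ← map_pow, hrel, map_zero]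
  · rw [hT, hT, ← map_pow]
    simp only [Option.elim, ← map_mul, ← map_sum, ← map_add]
    congr 1
    refine b.ext fun i => ?_
    rw [← hac j i, ← hx j i, ← hx₀ j i]
    simp [sumMap]
  · rw [hT, ← map_quad, ← map_pow, ← map_mul]
    congr 1
    refine b.ext fun i => ?_
    rw [← hy i]
    simp

variable [IsAdicComplete (maximalIdeal O) O] [Finite (ResidueField O)]

/-- **The patching theorem for lowering the level.** -/
theorem false_of_levels {ϖ δ i₀ : O} (hϖ : Irreducible ϖ) (hδ : δ ≠ 0)
    (hδm : δ ∈ maximalIdeal O) (hi : i₀ * i₀ = -1) (h2 : (2 : O) ≠ 0)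
    (hr : r = 3 * Fintype.card ι + g₀) (q : ι) (hs : 0 < s) (E : ℕ)
    (h : ∀ n : ℕ, ∃ (R : Type) (_ : CommRing R) (φ : MvPowerSeries (Fin r) O →+* R)
      (_ : Function.Surjective φ)
      (_ : RingHom.ker φ ≤ maximalIdeal (MvPowerSeries (Fin r) O) ^ n)
      (M : Type) (_ : AddCommGroup M) (_ : Module R M) (_ : Module.Basis (Fin s) R M)
      (z : Var ι g₀ → Module.End R M),
      (∀ v w, Commute (z v) (z w)) ∧
      (∀ v, LinearMap.range (z v ^ E) ≤
        (maximalIdeal (MvPowerSeries (Fin r) O)).map φ • (⊤ : Submodule R M)) ∧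
      (∀ x, rel (algebraMap R (Module.End R M) (φ (C δ))) z x ^ E = 0) ∧
      (∀ j, LinearMap.range (algebraMap R (Module.End R M) (φ (X j)) ^ E) ≤
        (⨆ v, LinearMap.range (z v)) ⊔ LinearMap.range (algebraMap R (Module.End R M) (φ (C ϖ)))) ∧
      LinearMap.range (quad z q ^ E) ≤
        LinearMap.range (algebraMap R (Module.End R M) (φ (C ϖ)))) : False := by
  obtain ⟨Z, W, Y, hD⟩ := exists_datum (g₀ := g₀) (s := s) (ϖ := ϖ) (δ := δ) (q := q) (E := E)
    (r := r) fun n => by
      obtain ⟨R, _, φ, hφ, hker, M, _, _, b, z, hcomm, hnil, hrel, hparam, hquad⟩ := h n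
      obtain ⟨Z, W, Y, hD⟩ := exists_matrix_datum φ b z hcomm hnil hrel hparam hquad
      let ψ := (RingHom.liftOfSurjective φ hφ) ⟨Ideal.Quotient.mk
        (maximalIdeal (MvPowerSeries (Fin r) O) ^ n), by rw [Ideal.mk_ker]; exact hker⟩
      have hψ : ψ.comp φ = Ideal.Quotient.mk (maximalIdeal _ ^ n) :=
        RingHom.liftOfRightInverse_comp φ _ _ _
      have := hD.map ψ
      rw [hψ] at this
      exact ⟨_, le_rfl, _, _, _, this⟩
  obtain ⟨B, _, _, _, _, _, z, hinj, hz, hrel, hy, hquad⟩ := exists_point hD hs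
  exact false_of_point hϖ hδ hδm hi h2 hr q z hinj hz hrel hy hquad

end Fermat.Agent.LL
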