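/-
Level lowering at an odd prime for the Frey curve: Mazur's principle as long as it applies, then the
patching contradiction.
-/
import Fermat.Agent.LL.Patched
import Fermat.Agent.LL.Frey
import Fermat.Prelude.Def_FreyPackage_IsConductorLevel

set_option autoImplicit false

open WeierstrassCurve WeierstrassCurve.Affine WeierstrassCurve.Affine.Point

namespace Fermat.Agent.LL

/-- An odd prime can be removed from a level prime to `p`. -/
theorem exists_lower_prime (P : FreyPackage) {q : ℕ} (hq : q.Prime) (hq2 : q ≠ 2)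
    (hirr : GaloisRepIsIrreducible (K := AlgebraicClosure ℚ) ℚ P.freyCurve P.p) :
    ∀ N : ℕ, P.IsConductorLevel N → ¬ P.p ∣ N → P.ModularRepOfLevel N → q ∣ N →
      ∃ M : ℕ, M ∣ N ∧ ¬ q ∣ M ∧ P.ModularRepOfLevel M := by
  intro N
  induction N using Nat.strong_induction_on with
  | _ N ih =>
    intro hcond hpN hmod hqN
    classical
    haveI : Fact P.p.Prime := ⟨P.pp⟩
    haveI : NeZero N := ⟨hcond.pos.ne'⟩
    have hunr : ∀ l : ℕ, l.Prime → l ≠ 2 → l ∣ N → P.GaloisRepUnramifiedAt l := fun l hl hl2 hlN =>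
      EC.frey_unramified P hl hl2 fun h => hpN (h ▸ hlN)
    by_cases hex : ∃ l : ℕ, l.Prime ∧ l ≠ 2 ∧ l ∣ N ∧ ((l : ZMod P.p) ≠ 1 ∨
        ∀ A : ValuationSubring (AlgebraicClosure ℚ), A.LiesOverPrime l → NonScalarAt P A)
    · obtain ⟨l, hl, hl2, hlN, hcase⟩ := hex
      have hl' := hunr l hl hl2 hlN
      obtain ⟨m, rfl⟩ := hlN
      have hm : 0 < m := Nat.pos_of_mul_pos_left hcond.pos
      have hmod' : P.ModularRepOfLevel m :=
        modularRepOfLevel_of_mazur_principle P hcond hl hl2 hpN hirr hmod hl' hcase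
      by_cases hlq : l = q
      · subst hlq
        refine ⟨m, dvd_mul_left m l, fun h => ?_, hmod'⟩
        exact hl.not_isUnit (hcond.squarefree l (mul_dvd_mul_left l h))
      · have hqm : q ∣ m := ((hq.dvd_mul).mp hqN).resolve_left fun h =>
          hlq ((Nat.prime_dvd_prime_iff_eq hq hl).mp h).symm
        obtain ⟨M, hMm, hqM, hM⟩ := ih m (lt_mul_of_one_lt_left hm hl.one_lt)
          (hcond.of_dvd (dvd_mul_left m l) hm) (fun h => hpN (h.mul_left l)) hmod' hqm
        exact ⟨M, hMm.trans (dvd_mul_left m l), hqM, hM⟩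
    · push Not at hex
      refine ⟨N / q, Nat.div_dvd_of_dvd hqN, fun h => ?_, ?_⟩
      · have h2 : q * q ∣ N := by
          rw [← Nat.div_mul_cancel hqN]
          exact mul_dvd_mul_right h q
        exact hq.not_isUnit (hcond.squarefree q h2)
      · by_contra hnot
        obtain ⟨O, _, _, _, _, _, _, _, _, ρbar, S, sig, a, hS⟩ :=
          exists_setting P hcond hpN hirr hmod hq hq2 hqN
            (fun l hl hl2 hlN => hex l hl hl2 hlN) hnot
        exact false_of_setting hS

end Fermat.Agent.LL
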